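import Mathlib

/-!
# Homogeneous Dirichlet polynomials of small supremum

`m` blocks of `p` primes, coupled by the `p × p` matrix `exp (2 π i j k / p)` of norm `√p`: a
polynomial with `p ^ m` terms of modulus `1` bounded by `p ^ ((m + 1) / 2)` times the primes.
-/

set_option autoImplicit false

noncomputable section

open Complex Finset
open scoped Real ComplexConjugate

namespace FA.BohrStrip

variable {p : ℕ}

/-- `exp (2 π i / p)`. -/
def rootP (p : ℕ) : ℂ := cexp (2 * π * I / p)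

theorem norm_rootP (p : ℕ) : ‖rootP p‖ = 1 := by
  rw [rootP, Complex.norm_exp]
  simp

theorem rootP_ne_zero (p : ℕ) : rootP p ≠ 0 := Complex.exp_ne_zero _

theorem rootP_orth (hp : p ≠ 0) {k k' : Fin p} :
    ∑ j : Fin p, rootP p ^ ((j : ℕ) * k) * conj (rootP p ^ ((j : ℕ) * k')) =
      if k = k' then (p : ℂ) else 0 := by
  obtain ⟨x, hx⟩ : ∃ x, x = rootP p ^ (k : ℕ) * conj (rootP p ^ (k' : ℕ)) := ⟨_, rfl⟩
  have hz : ∀ n : ℕ, conj (rootP p ^ n) = (rootP p ^ n)⁻¹ := fun n =>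
    (Complex.inv_eq_conj (by rw [norm_pow, norm_rootP, one_pow])).symm
  have h := Complex.isPrimitiveRoot_exp p hp
  have e : ∀ j : Fin p, rootP p ^ ((j : ℕ) * k) * conj (rootP p ^ ((j : ℕ) * k')) = x ^ (j : ℕ) :=
    fun j => by
      rw [hx, mul_pow, ← map_pow, ← pow_mul, ← pow_mul, mul_comm (j : ℕ), mul_comm (j : ℕ)]
  simp only [e]
  rw [Fin.sum_univ_eq_sum_range (fun j => x ^ j)]
  split_ifs with hkk
  · have h1 : x = 1 := by
      rw [hx, hkk, hz, mul_inv_cancel₀ (pow_ne_zero _ (rootP_ne_zero p))]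
    simp [h1]
  · have h1 : x ≠ 1 := fun e1 => hkk (Fin.ext (h.pow_inj k.2 k'.2 (by
      rw [hx, hz, mul_inv_eq_one₀ (pow_ne_zero _ (rootP_ne_zero p))] at e1
      exact e1)))
    have h2 : x ^ p = 1 := by
      rw [hx, mul_pow, ← map_pow, ← pow_mul, ← pow_mul, mul_comm (k : ℕ), mul_comm (k' : ℕ),
        pow_mul, pow_mul, show rootP p ^ p = 1 from h.pow_eq_one]
      simp
    rw [geom_sum_eq h1, h2, sub_self, zero_div]

/-- **The matrix has norm `√p`.** -/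
theorem sum_sq_rootP (hp : p ≠ 0) (v : Fin p → ℂ) :
    ∑ j : Fin p, ‖∑ k : Fin p, rootP p ^ ((j : ℕ) * k) * v k‖ ^ 2 =
      p * ∑ k : Fin p, ‖v k‖ ^ 2 := by
  refine Complex.ofReal_injective ?_
  simp only [ofReal_sum, ofReal_mul, ofReal_pow, ofReal_natCast, ← Complex.mul_conj', map_sum,
    map_mul, Finset.sum_mul_sum]
  rw [Finset.sum_comm, Finset.mul_sum]
  refine Finset.sum_congr rfl fun k _ => ?_
  rw [Finset.sum_comm]
  have e : ∀ k' : Fin p, ∑ j : Fin p, rootP p ^ ((j : ℕ) * k) * v k *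
      (conj (rootP p ^ ((j : ℕ) * k')) * conj (v k')) =
      (if k = k' then (p : ℂ) else 0) * (v k * conj (v k')) := fun k' => by
    rw [← rootP_orth hp, Finset.sum_mul]
    exact Finset.sum_congr rfl fun j _ => by ring
  simp only [e, ite_mul, zero_mul, Finset.sum_ite_eq, Finset.mem_univ, if_true]

/-- The product of the primes of a path. -/
def pathNum (q : ℕ → Fin p → ℕ) {i : ℕ} (J : Fin i → Fin p) : ℕ := ∏ l : Fin i, q l (J l)

/-- The product of the phases along a path. -/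
def pathWt : (i : ℕ) → (Fin (i + 1) → Fin p) → ℂ
  | 0, _ => 1
  | i + 1, J => rootP p ^ ((J (Fin.last (i + 1)) : ℕ) * (Fin.init J (Fin.last i) : Fin p)) *
      pathWt i (Fin.init J)

theorem norm_pathWt : ∀ (i : ℕ) (J : Fin (i + 1) → Fin p), ‖pathWt i J‖ = 1
  | 0, _ => norm_one
  | i + 1, J => by rw [pathWt, norm_mul, norm_pow, norm_rootP, one_pow, norm_pathWt i, one_mul]

/-- The paths ending in `j`. -/
def chirpVec (q : ℕ → Fin p → ℕ) (s : ℂ) (i : ℕ) (j : Fin p) : ℂ :=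
  ∑ J : Fin (i + 1) → Fin p,
    if J (Fin.last i) = j then pathWt i J * (pathNum q J : ℂ) ^ (-s) else 0

/-- **The polynomial.** -/
def chirpPoly (q : ℕ → Fin p → ℕ) (s : ℂ) (i : ℕ) : ℂ :=
  ∑ J : Fin (i + 1) → Fin p, pathWt i J * (pathNum q J : ℂ) ^ (-s)

theorem chirpPoly_eq (q : ℕ → Fin p → ℕ) (s : ℂ) (i : ℕ) :
    chirpPoly q s i = ∑ j : Fin p, chirpVec q s i j := by
  rw [chirpPoly, Finset.sum_congr rfl fun (j : Fin p) _ => chirpVec.eq_def q s i j,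
    Finset.sum_comm]
  simp

theorem chirpVec_zero (q : ℕ → Fin p → ℕ) (s : ℂ) (j : Fin p) :
    chirpVec q s 0 j = (q 0 j : ℂ) ^ (-s) := by
  rw [chirpVec, ← (Equiv.funUnique (Fin 1) (Fin p)).symm.sum_comp]
  simp [pathWt, pathNum, Equiv.funUnique]

theorem chirpVec_succ (q : ℕ → Fin p → ℕ) (s : ℂ) (i : ℕ) (j : Fin p) :
    chirpVec q s (i + 1) j =
      (q (i + 1) j : ℂ) ^ (-s) * ∑ k : Fin p, rootP p ^ ((j : ℕ) * k) * chirpVec q s i k := by
  rw [chirpVec, ← (Fin.snocEquiv fun _ => Fin p).sum_comp, Fintype.sum_prod_type]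
  simp only [Fin.snocEquiv_apply, Fin.snoc_last]
  rw [Finset.sum_eq_single j (fun b _ hb => Finset.sum_eq_zero fun J _ => if_neg hb)
    (fun h => absurd (Finset.mem_univ j) h)]
  simp only [if_true, chirpVec, Finset.mul_sum]
  rw [Finset.sum_comm]
  refine Finset.sum_congr rfl fun J _ => ?_
  rw [Finset.sum_eq_single (J (Fin.last i)) (fun k _ hk => by rw [if_neg hk.symm]; simp)
    (fun h => absurd (Finset.mem_univ _) h), if_pos rfl,
    show (Fin.snocEquiv fun _ => Fin p) (j, J) = Fin.snoc J j from rfl,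
    pathWt, Fin.init_snoc, Fin.snoc_last]
  have e : pathNum q (Fin.snoc (α := fun _ => Fin p) J j) = pathNum q J * q (i + 1) j := by
    rw [pathNum, Fin.prod_univ_castSucc]
    simp [pathNum]
  rw [e, Nat.cast_mul, natCast_mul_natCast_cpow]
  ring

theorem sum_sq_chirpVec (hp : p ≠ 0) {q : ℕ → Fin p → ℕ} {s : ℂ} {ρ : ℝ} : ∀ i : ℕ,
    (∀ l ≤ i, ∀ j, ‖(q l j : ℂ) ^ (-s)‖ ≤ ρ) →
      ∑ j : Fin p, ‖chirpVec q s i j‖ ^ 2 ≤ (p * ρ ^ 2 : ℝ) ^ (i + 1)
  | 0, h => by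
    refine (Finset.sum_le_sum (g := fun _ => ρ ^ 2) fun j _ => ?_).trans (le_of_eq (by simp))
    rw [chirpVec_zero]
    exact pow_le_pow_left₀ (norm_nonneg _) (h 0 le_rfl j) 2
  | i + 1, h => by
    calc ∑ j : Fin p, ‖chirpVec q s (i + 1) j‖ ^ 2
        ≤ ∑ j : Fin p, ρ ^ 2 * ‖∑ k : Fin p, rootP p ^ ((j : ℕ) * k) * chirpVec q s i k‖ ^ 2 := by
          refine Finset.sum_le_sum fun j _ => ?_
          rw [chirpVec_succ, norm_mul, mul_pow]
          exact mul_le_mul_of_nonneg_right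
            (pow_le_pow_left₀ (norm_nonneg _) (h _ le_rfl j) 2) (sq_nonneg _)
      _ = ρ ^ 2 * (p * ∑ k : Fin p, ‖chirpVec q s i k‖ ^ 2) := by
          rw [← Finset.mul_sum, sum_sq_rootP hp]
      _ ≤ ρ ^ 2 * (p * (p * ρ ^ 2 : ℝ) ^ (i + 1)) :=
          mul_le_mul_of_nonneg_left (mul_le_mul_of_nonneg_left
            (sum_sq_chirpVec hp i fun l hl => h l (hl.trans (Nat.le_succ i)))
              (Nat.cast_nonneg p)) (sq_nonneg ρ)
      _ = _ := by ring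

/-- **The supremum.** -/
theorem norm_chirpPoly_sq_le (hp : p ≠ 0) {q : ℕ → Fin p → ℕ} {s : ℂ} {ρ : ℝ} {i : ℕ}
    (h : ∀ l ≤ i, ∀ j, ‖(q l j : ℂ) ^ (-s)‖ ≤ ρ) :
    ‖chirpPoly q s i‖ ^ 2 ≤ (p : ℝ) ^ (i + 2) * ρ ^ (2 * (i + 1)) := by
  rw [chirpPoly_eq]
  refine (pow_le_pow_left₀ (norm_nonneg _) (norm_sum_le _ _) 2).trans
    (sq_sum_le_card_mul_sum_sq.trans ?_)
  rw [Finset.card_univ, Fintype.card_fin]
  refine (mul_le_mul_of_nonneg_left (sum_sq_chirpVec hp i h) (Nat.cast_nonneg p)).trans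
    (le_of_eq ?_)
  ring

/-- Distinct paths have distinct products. -/
theorem pathNum_injective {m : ℕ} {q : ℕ → Fin p → ℕ} (hq : ∀ l < m, ∀ j, (q l j).Prime)
    (hinj : ∀ l < m, ∀ l' < m, ∀ j j', q l j = q l' j' → l = l' ∧ j = j') :
    Function.Injective (pathNum q : (Fin m → Fin p) → ℕ) := fun J J' e => funext fun l => by
  have hdvd : q l (J l) ∣ pathNum q J' :=
    e ▸ Finset.dvd_prod_of_mem (fun x : Fin m => q x (J x)) (Finset.mem_univ l)
  obtain ⟨l', -, hl'⟩ := ((hq l l.2 _).prime.dvd_finsetProd_iff _).1 hdvd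
  obtain ⟨h1, h2⟩ := hinj l l.2 l' l'.2 _ _
    ((Nat.prime_dvd_prime_iff_eq (hq l l.2 _) (hq l' l'.2 _)).1 hl')
  rwa [← Fin.ext h1] at h2

end FA.BohrStrip

end
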