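import Fermat.Agent.BohrStrip.Sharp
import Mathlib.Analysis.Complex.LocallyUniformLimit

/-!
# The series of Bohnenblust and Hille
-/

set_option autoImplicit false

noncomputable section

open Complex Filter Topology Set
open scoped Function

namespace FA.BohrStrip

variable {r : ℕ → ℕ} {S : ℕ → Finset ℕ} {w : ℕ → ℕ → ℂ}

/-- The union of the blocks. -/
def glueSeq (S : ℕ → Finset ℕ) (w : ℕ → ℕ → ℂ) (n : ℕ) : ℂ :=
  open scoped Classical in if h : ∃ k, n ∈ S k then w h.choose n else 0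

theorem glueSeq_of_mem (hdis : Pairwise (Disjoint on S)) {k n : ℕ} (hn : n ∈ S k) :
    glueSeq S w n = w k n := by
  have h : ∃ j, n ∈ S j := ⟨k, hn⟩
  rw [glueSeq, dif_pos h, hdis.eq (a := h.choose) (b := k)
    fun hd => Finset.disjoint_left.1 hd h.choose_spec hn]

theorem glueSeq_of_notMem {n : ℕ} (hn : ∀ k, n ∉ S k) : glueSeq S w n = 0 :=
  dif_neg fun ⟨k, hk⟩ => hn k hk

theorem norm_glueSeq_le (hdis : Pairwise (Disjoint on S)) (hw : ∀ k, ∀ n ∈ S k, ‖w k n‖ = 1)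
    (n : ℕ) : ‖glueSeq S w n‖ ≤ 1 := by
  by_cases h : ∃ k, n ∈ S k
  · obtain ⟨k, hk⟩ := h
    rw [glueSeq_of_mem hdis hk, hw k n hk]
  · rw [glueSeq_of_notMem (not_exists.1 h), norm_zero]
    exact zero_le_one

theorem term_glueSeq (hdis : Pairwise (Disjoint on S)) {k n : ℕ} (hn : n ∈ S k) (s : ℂ) :
    LSeries.term (glueSeq S w) s n = LSeries.term (w k) s n := by
  rcases eq_or_ne n 0 with rfl | h0
  · simp
  rw [LSeries.term_of_ne_zero h0, LSeries.term_of_ne_zero h0, glueSeq_of_mem hdis hn]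

theorem hasSum_blocks (hdis : Pairwise (Disjoint on S)) {s : ℂ}
    (hs : LSeriesSummable (glueSeq S w) s) :
    HasSum (fun k => ∑ n ∈ S k, LSeries.term (w k) s n) (LSeries (glueSeq S w) s) := by
  have hinj : Function.Injective (fun x : Σ k, {n // n ∈ S k} => (x.2 : ℕ)) :=
    fun ⟨k, n, hn⟩ ⟨j, n', hn'⟩ e => by
      obtain rfl : n = n' := e
      obtain rfl : k = j := hdis.eq fun hd => Finset.disjoint_left.1 hd hn hn'
      rfl
  have h := (hinj.hasSum_iff fun n hn => ?_).2 hs.hasSum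
  · refine (h.sigma fun k => hasSum_fintype _).congr_fun fun k => ?_
    rw [Finset.univ_eq_attach]
    exact (Finset.sum_attach (S k) fun n => LSeries.term (w k) s n).symm.trans
      (Finset.sum_congr rfl fun n _ => (term_glueSeq hdis n.2 s).symm)
  · rcases eq_or_ne n 0 with rfl | h0
    · simp
    rw [LSeries.term_of_ne_zero h0, glueSeq_of_notMem (fun k hk => hn ⟨⟨k, n, hk⟩, rfl⟩), zero_div]

theorem norm_block_le_card (hw : ∀ k, ∀ n ∈ S k, ‖w k n‖ = 1) (k : ℕ) {s : ℂ} (hs : 0 ≤ s.re) :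
    ‖∑ n ∈ S k, LSeries.term (w k) s n‖ ≤ (S k).card := by
  refine (norm_sum_le_of_le _ fun n hn => (?_ : ‖LSeries.term (w k) s n‖ ≤ 1)).trans (by simp)
  rw [LSeries.norm_term_eq]
  split_ifs with h0
  · exact zero_le_one
  · rw [hw k n hn]
    exact (div_le_one (Real.rpow_pos_of_pos (by exact_mod_cast Nat.pos_of_ne_zero h0) _)).2
      (Real.one_le_rpow (by exact_mod_cast Nat.one_le_iff_ne_zero.2 h0) hs)

/-- Not absolutely convergent left of `1`. -/
theorem not_summable_glueSeq (hdis : Pairwise (Disjoint on S)) (hr : ∀ k, 2 ^ k ≤ r k)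
    (hS : ∀ k, ∀ n ∈ S k, r k ^ ((k + 2) ^ 2) < n ∧ n ≤ r k ^ ((k + 2) * (k + 3)))
    (hcard : ∀ k, (S k).card = r k ^ ((k + 2) ^ 2)) (hw : ∀ k, ∀ n ∈ S k, ‖w k n‖ = 1) {s : ℂ}
    (hs : s.re < 1) : ¬LSeriesSummable (glueSeq S w) s := fun h => by
  obtain ⟨σ, hσ⟩ : ∃ σ, σ = max s.re 0 := ⟨_, rfl⟩
  have hσ1 : σ < 1 := hσ ▸ max_lt hs one_pos
  have hσ0 : 0 ≤ σ := hσ ▸ le_max_right _ _
  have hsum := (h.of_re_le_re (s' := (σ : ℂ)) (by simp [hσ])).norm
  obtain ⟨T, hT⟩ := hsum.vanishing (e := Metric.ball (0 : ℝ) 1) (Metric.ball_mem_nhds _ one_pos)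
  obtain ⟨k, hk1, hk2⟩ : ∃ k : ℕ, 1 / (1 - σ) ≤ k ∧ ∀ n ∈ T, n < 2 ^ k := by
    refine ⟨max ⌈1 / (1 - σ)⌉₊ (T.sup id + 1), (Nat.le_ceil _).trans (by
      exact_mod_cast le_max_left _ _), fun n hn => ?_⟩
    exact ((Finset.le_sup (f := id) hn).trans_lt (Nat.lt_two_pow_self)).trans_le
      (Nat.pow_le_pow_right two_pos ((Nat.le_succ _).trans (le_max_right _ _)))
  have hr1 : 1 ≤ r k := Nat.one_le_two_pow.trans (hr k)
  have hd : Disjoint (S k) T := Finset.disjoint_left.2 fun n hn hnT => by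
    have := ((hr k).trans (Nat.le_self_pow (by positivity) (r k))).trans (hS k n hn).1.le
    exact absurd (hk2 n hnT) this.not_gt
  have hlt := hT (S k) hd
  rw [Metric.mem_ball, dist_zero_right, Real.norm_of_nonneg
    (Finset.sum_nonneg fun n _ => norm_nonneg _)] at hlt
  refine hlt.not_ge ?_
  obtain ⟨B, hB⟩ : ∃ B : ℝ, B = ((r k : ℝ) ^ ((k + 2) * (k + 3))) ^ σ := ⟨_, rfl⟩
  have hr0 : (0 : ℝ) < r k := by exact_mod_cast hr1
  have hB0 : 0 < B := hB ▸ Real.rpow_pos_of_pos (pow_pos hr0 _) _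
  have hterm : ∀ n ∈ S k, B⁻¹ ≤ ‖LSeries.term (glueSeq S w) (σ : ℂ) n‖ := fun n hn => by
    have hn0 : n ≠ 0 := by have := (hS k n hn).1; omega
    rw [LSeries.norm_term_eq, if_neg hn0, glueSeq_of_mem hdis hn, hw k n hn, ofReal_re, one_div]
    refine inv_anti₀ (Real.rpow_pos_of_pos (by exact_mod_cast Nat.pos_of_ne_zero hn0) _) ?_
    rw [hB]
    exact Real.rpow_le_rpow (Nat.cast_nonneg n) (by exact_mod_cast (hS k n hn).2) hσ0
  refine le_trans ?_ (Finset.sum_le_sum hterm)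
  rw [Finset.sum_const, nsmul_eq_mul, hcard, ← div_eq_mul_inv, one_le_div hB0, hB,
    Nat.cast_pow, ← Real.rpow_natCast, ← Real.rpow_natCast _ ((k + 2) ^ 2),
    ← Real.rpow_mul hr0.le]
  refine Real.rpow_le_rpow_of_exponent_le (by exact_mod_cast hr1) ?_
  push_cast
  rw [div_le_iff₀ (by linarith)] at hk1
  have h2 := mul_le_mul_of_nonneg_left (show ((k : ℝ) + 3) * σ ≤ k + 2 by nlinarith)
    (show (0 : ℝ) ≤ k + 2 by positivity)
  linarith

/-- Uniformly convergent right of `1/2`. -/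
theorem exists_uniform_glueSeq (hdis : Pairwise (Disjoint on S)) (hr : ∀ k, 2 ^ k ≤ r k)
    (hw : ∀ k, ∀ n ∈ S k, ‖w k n‖ = 1)
    (hsup : ∀ k : ℕ, ∀ s : ℂ, 1 / 2 + 1 / ((k : ℝ) + 2) ≤ s.re →
      ‖∑ n ∈ S k, LSeries.term (w k) s n‖ ≤ 1 / r k) {σ : ℝ} (hσ : 1 / 2 < σ) :
    ∃ F : ℂ → ℂ, TendstoUniformlyOn
      (fun N s => ∑ n ∈ Finset.range N, LSeries.term (glueSeq S w) s n) F atTop
        {s : ℂ | σ ≤ s.re} := by
  obtain ⟨ε, hε⟩ : ∃ ε, ε = (σ - 1 / 2) / 2 := ⟨_, rfl⟩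
  have hε0 : 0 < ε := by linarith
  obtain ⟨k₀, hk₀⟩ := exists_nat_gt (1 / ε)
  rw [div_lt_iff₀ hε0] at hk₀
  obtain ⟨u, hu⟩ : ∃ u : ℕ → ℝ,
      u = fun k => (1 / 2 : ℝ) ^ k + if k < k₀ then ((S k).card : ℝ) else 0 := ⟨_, rfl⟩
  have hu0 : Summable u := hu ▸ summable_geometric_two.add
    (summable_of_ne_finset_zero (s := Finset.range k₀) fun k hk =>
      if_neg fun h => hk (Finset.mem_range.2 h))
  have hU : IsOpen {s : ℂ | 1 / 2 + ε < s.re} := isOpen_lt continuous_const continuous_re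
  have hle : ∀ k, ∀ s ∈ {s : ℂ | 1 / 2 + ε < s.re},
      ‖∑ n ∈ S k, LSeries.term (w k) s n‖ ≤ u k := fun k s hs => by
    rw [mem_ofPred_eq] at hs
    simp only [hu]
    by_cases hk : k < k₀
    · rw [if_pos hk]
      exact (norm_block_le_card hw k (by linarith)).trans (le_add_of_nonneg_left (by positivity))
    · rw [if_neg hk, add_zero]
      have hk' : (k₀ : ℝ) ≤ k := Nat.cast_le.2 (not_lt.1 hk)
      have hk2 : 1 / ((k : ℝ) + 2) ≤ ε := by
        rw [div_le_iff₀ (by positivity)]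
        nlinarith
      refine (hsup k s (by linarith)).trans ?_
      rw [div_pow, one_pow]
      exact div_le_div_of_nonneg_left zero_le_one (by positivity) (by exact_mod_cast hr k)
  have hd : DifferentiableOn ℂ (fun s => ∑' k, ∑ n ∈ S k, LSeries.term (w k) s n)
      {s : ℂ | 1 / 2 + ε < s.re} := by
    refine Complex.differentiableOn_tsum_of_summable_norm hu0 (fun k => ?_) hU hle
    refine (Differentiable.fun_sum fun n _ => ?_).differentiableOn
    exact fun z => (LSeries.hasDerivAt_term (w k) n z).differentiableAt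
  have hbd : ∀ s : ℂ, 1 / 2 + ε < s.re →
      ‖∑' k, ∑ n ∈ S k, LSeries.term (w k) s n‖ ≤ ∑' k, u k := fun s hs =>
    tsum_of_norm_bounded hu0.hasSum fun k => hle k s hs
  have h2 : LSeriesSummable (glueSeq S w) ((2 : ℝ) : ℂ) :=
    LSeriesSummable_of_bounded_of_one_lt_re (m := 1)
      (fun n _ => norm_glueSeq_le hdis hw n) (by norm_num)
  refine ⟨_, (tendstoUniformlyOn_of_bounded h2 hd hbd (fun s _ h2s => ?_) hε0).mono
    fun s hs => ?_⟩
  · exact (hasSum_blocks hdis (h2.of_re_le_re (by simpa using h2s))).tsum_eq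
  · show 1 / 2 + ε + ε ≤ s.re
    rw [mem_ofPred_eq] at hs
    linarith

end FA.BohrStrip

end
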