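import Mathlib.NumberTheory.LSeries.Dirichlet
import Mathlib.Analysis.SpecialFunctions.Integrals.Basic
import Mathlib.Analysis.PSeries

/-!
# Bounded partial sums give absolute convergence one half further
-/

set_option autoImplicit false

noncomputable section

open Complex MeasureTheory Filter Topology Set
open scoped ComplexConjugate

namespace FA.BohrStrip

variable {a : ℕ → ℂ} {σ M : ℝ}

theorem term_line_eq (a : ℕ → ℂ) (σ t : ℝ) (n : ℕ) :
    LSeries.term a ((σ : ℂ) + (t : ℂ) * I) n =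
      LSeries.term a (σ : ℂ) n * cexp ((t : ℂ) * ((-Real.log n : ℝ) : ℂ) * I) := by
  rcases eq_or_ne n 0 with rfl | hn
  · simp
  rw [LSeries.term_of_ne_zero hn, LSeries.term_of_ne_zero hn,
    cpow_add _ _ (Nat.cast_ne_zero.2 hn), cpow_def_of_ne_zero (Nat.cast_ne_zero.2 hn) ((t : ℂ) * I),
    ← natCast_log, div_mul_eq_div_div, div_eq_mul_inv _ (cexp _), ← Complex.exp_neg]
  congr 2
  push_cast
  ring

theorem norm_integral_osc_le {d T : ℝ} (hd : d ≠ 0) :
    ‖∫ t in (-T)..T, cexp ((t : ℂ) * (d : ℂ) * I)‖ ≤ 2 / |d| := by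
  have hne : ((d : ℂ) * I) ≠ 0 := mul_ne_zero (ofReal_ne_zero.2 hd) I_ne_zero
  rw [intervalIntegral.integral_congr (g := fun t : ℝ => cexp ((d : ℂ) * I * (t : ℂ)))
    fun t _ => by rw [mul_assoc, mul_comm], integral_exp_mul_complex hne, norm_div]
  simp only [norm_mul, Complex.norm_I, mul_one, Complex.norm_real, Real.norm_eq_abs]
  refine div_le_div_of_nonneg_right ((norm_sub_le _ _).trans (le_of_eq ?_)) (abs_nonneg d)
  simp only [Complex.norm_exp]
  norm_num

/-- **The mean value of a bounded Dirichlet polynomial.** -/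
theorem sum_sq_le (N : ℕ)
    (hb : ∀ t : ℝ, ‖∑ n ∈ Finset.range N, LSeries.term a ((σ : ℂ) + (t : ℂ) * I) n‖ ≤ M) :
    ∑ n ∈ Finset.range N, ‖LSeries.term a (σ : ℂ) n‖ ^ 2 ≤ M ^ 2 := by
  classical
  obtain ⟨b, hbd⟩ : ∃ b : ℕ → ℂ, b = LSeries.term a (σ : ℂ) := ⟨_, rfl⟩
  rw [← hbd]
  obtain ⟨d, hd⟩ : ∃ d : ℕ → ℕ → ℝ, d = fun (j k : ℕ) => Real.log k - Real.log j := ⟨_, rfl⟩
  obtain ⟨g, hg⟩ : ∃ g : ℕ → ℕ → ℝ → ℂ,
      g = fun (j k : ℕ) (t : ℝ) => b j * conj (b k) * cexp ((t : ℂ) * (d j k : ℂ) * I) := ⟨_, rfl⟩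
  obtain ⟨K, hK⟩ : ∃ K, K = ∑ j ∈ Finset.range N, ∑ k ∈ Finset.range N,
      ‖b j‖ * ‖b k‖ * (2 / |d j k|) := ⟨_, rfl⟩
  have hexp : ∀ t : ℝ, ((‖∑ n ∈ Finset.range N,
      LSeries.term a ((σ : ℂ) + (t : ℂ) * I) n‖ ^ 2 : ℝ) : ℂ) =
      ∑ j ∈ Finset.range N, ∑ k ∈ Finset.range N, g j k t := fun t => by
    rw [ofReal_pow, ← Complex.mul_conj', map_sum, Finset.sum_mul_sum]
    refine Finset.sum_congr rfl fun j _ => Finset.sum_congr rfl fun k _ => ?_
    rw [term_line_eq, term_line_eq, hg, ← hbd, map_mul, mul_mul_mul_comm, ← Complex.exp_conj,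
      ← Complex.exp_add]
    simp only [map_mul, conj_ofReal, conj_I, hd]
    push_cast
    ring_nf
  have hgc : ∀ j k, Continuous (g j k) := fun j k => hg ▸ by fun_prop
  by_contra hlt
  rw [not_le] at hlt
  obtain ⟨T, hT⟩ : ∃ T, T = (K + 1) / (2 * ((∑ n ∈ Finset.range N, ‖b n‖ ^ 2) - M ^ 2)) := ⟨_, rfl⟩
  have hK0 : 0 ≤ K := hK ▸ Finset.sum_nonneg fun j _ => Finset.sum_nonneg fun k _ => by positivity
  have hT0 : 0 < T := hT ▸ div_pos (by linarith) (by linarith)
  have hTd : T * (2 * ((∑ n ∈ Finset.range N, ‖b n‖ ^ 2) - M ^ 2)) = K + 1 :=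
    hT ▸ div_mul_cancel₀ _ (by linarith)
  obtain ⟨J, hJ⟩ : ∃ J : ℝ, J = ∫ t in (-T)..T,
      ‖∑ n ∈ Finset.range N, LSeries.term a ((σ : ℂ) + (t : ℂ) * I) n‖ ^ 2 := ⟨_, rfl⟩
  have hup : J ≤ 2 * T * M ^ 2 := by
    have hn := intervalIntegral.norm_integral_le_of_norm_le_const (a := -T) (b := T)
      (C := M ^ 2) (f := fun t : ℝ => ‖∑ n ∈ Finset.range N,
        LSeries.term a ((σ : ℂ) + (t : ℂ) * I) n‖ ^ 2) fun t _ => by
      rw [Real.norm_of_nonneg (sq_nonneg _)]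
      exact pow_le_pow_left₀ (norm_nonneg _) (hb t) 2
    rw [← hJ, sub_neg_eq_add, abs_of_pos (by linarith : 0 < T + T), Real.norm_eq_abs] at hn
    linarith [le_abs_self J]
  have hlow : 2 * T * (∑ n ∈ Finset.range N, ‖b n‖ ^ 2) - K ≤ J := by
    have e : (J : ℂ) = ∑ j ∈ Finset.range N, ∑ k ∈ Finset.range N, ∫ t in (-T)..T, g j k t := by
      rw [hJ, ← intervalIntegral.integral_ofReal, intervalIntegral.integral_congr
        (g := fun t => ∑ j ∈ Finset.range N, ∑ k ∈ Finset.range N, g j k t) fun t _ => hexp t,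
        intervalIntegral.integral_finsetSum fun j _ =>
          (continuous_finsetSum _ fun k _ => hgc j k).intervalIntegrable _ _]
      exact Finset.sum_congr rfl fun j _ =>
        intervalIntegral.integral_finsetSum fun k _ => (hgc j k).intervalIntegrable _ _
    have hd0 : ((2 * T * (∑ n ∈ Finset.range N, ‖b n‖ ^ 2) : ℝ) : ℂ) =
        ∑ j ∈ Finset.range N, ∑ k ∈ Finset.range N,
          if j = k then ∫ t in (-T)..T, g j k t else 0 := by
      rw [Finset.mul_sum, ofReal_sum]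
      refine Finset.sum_congr rfl fun j hj => ?_
      rw [Finset.sum_ite_eq, if_pos hj, hg]
      simp only [hd, sub_self, ofReal_zero, mul_zero, zero_mul, Complex.exp_zero, mul_one,
        intervalIntegral.integral_const, sub_neg_eq_add, Complex.real_smul, Complex.mul_conj']
      push_cast
      ring
    have hdiff : ‖(J : ℂ) - ((2 * T * (∑ n ∈ Finset.range N, ‖b n‖ ^ 2) : ℝ) : ℂ)‖ ≤ K := by
      rw [e, hd0, hK, ← Finset.sum_sub_distrib]
      simp only [← Finset.sum_sub_distrib]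
      refine norm_sum_le_of_le _ fun j _ => norm_sum_le_of_le _ fun k _ => ?_
      split_ifs with hjk
      · simp only [sub_self, norm_zero]
        positivity
      rw [sub_zero, hg]
      simp only
      rw [intervalIntegral.integral_const_mul, norm_mul, norm_mul, Complex.norm_conj]
      rcases eq_or_ne j 0 with rfl | hj0
      · simp [hbd]
      rcases eq_or_ne k 0 with rfl | hk0
      · simp [hbd]
      refine mul_le_mul_of_nonneg_left (norm_integral_osc_le fun h => hjk ?_) (by positivity)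
      simp only [hd, sub_eq_zero] at h
      exact_mod_cast (Real.log_injOn_pos (show (k : ℝ) ∈ Ioi 0 by simp; omega)
        (show (j : ℝ) ∈ Ioi 0 by simp; omega) h).symm
    rw [← ofReal_sub, Complex.norm_real, Real.norm_eq_abs] at hdiff
    linarith [(abs_le.1 hdiff).1]
  nlinarith

/-- **Bounded partial sums on a line give absolute convergence one half further.** -/
theorem lSeriesSummable_of_bounded (hb : ∀ N : ℕ, ∀ t : ℝ,
      ‖∑ n ∈ Finset.range N, LSeries.term a ((σ : ℂ) + (t : ℂ) * I) n‖ ≤ M) {s : ℂ}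
    (hs : σ + 1 / 2 < s.re) : LSeriesSummable a s := by
  have hM : 0 ≤ M := (norm_nonneg _).trans (hb 0 0)
  have h1 : Summable fun n : ℕ => ‖LSeries.term a (σ : ℂ) n‖ ^ 2 :=
    summable_of_sum_range_le (fun n => sq_nonneg _) fun N => sum_sq_le N (hb N)
  have h2 : Summable fun n : ℕ => (n : ℝ) ^ (-(2 * (s.re - σ))) :=
    Real.summable_nat_rpow.2 (by linarith)
  refine Summable.of_norm (((h1.add h2).mul_left (1 / 2)).of_nonneg_of_le
    (fun n => norm_nonneg _) fun n => ?_)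
  rcases eq_or_ne n 0 with rfl | hn
  · simp only [LSeries.term_zero, norm_zero]
    positivity
  have hn0 : (0 : ℝ) < n := by exact_mod_cast Nat.pos_of_ne_zero hn
  have e : ‖LSeries.term a s n‖ = ‖LSeries.term a (σ : ℂ) n‖ * (n : ℝ) ^ (-(s.re - σ)) := by
    rw [LSeries.norm_term_eq, LSeries.norm_term_eq, if_neg hn, if_neg hn, ofReal_re,
      Real.rpow_neg hn0.le, Real.rpow_sub hn0]
    field_simp
  have e2 : (n : ℝ) ^ (-(2 * (s.re - σ))) = ((n : ℝ) ^ (-(s.re - σ))) ^ 2 := by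
    rw [← Real.rpow_natCast, ← Real.rpow_mul hn0.le]
    push_cast
    ring_nf
  rw [e, e2]
  nlinarith [two_mul_le_add_sq ‖LSeries.term a (σ : ℂ) n‖ ((n : ℝ) ^ (-(s.re - σ)))]

/-- Uniform convergence on a half plane. -/
theorem lSeriesSummable_of_uniform {F : ℂ → ℂ}
    (h : TendstoUniformlyOn (fun N s => ∑ n ∈ Finset.range N, LSeries.term a s n) F atTop
      {s : ℂ | σ ≤ s.re}) {s : ℂ} (hs : σ + 1 / 2 < s.re) : LSeriesSummable a s := by
  obtain ⟨N₀, hN₀⟩ := eventually_atTop.1 (Metric.tendstoUniformlyOn_iff.1 h 1 one_pos)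
  obtain ⟨K, hK⟩ : ∃ K, K = ∑ n ∈ Finset.range N₀, ‖LSeries.term a (σ : ℂ) n‖ := ⟨_, rfl⟩
  have hK0 : 0 ≤ K := hK ▸ Finset.sum_nonneg fun n _ => norm_nonneg _
  refine lSeriesSummable_of_bounded (M := K + 2) (fun N t => ?_) hs
  have hsmall : ∀ n ≤ N₀, ‖∑ k ∈ Finset.range n, LSeries.term a ((σ : ℂ) + (t : ℂ) * I) k‖ ≤ K :=
    fun n hn => (norm_sum_le _ _).trans ((Finset.sum_le_sum_of_subset_of_nonneg
      (Finset.range_mono hn) fun _ _ _ => norm_nonneg _).trans (hK ▸ le_of_eq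
        (Finset.sum_congr rfl fun k _ => by
          simp only [LSeries.norm_term_eq]
          simp)))
  rcases le_or_gt N N₀ with hN | hN
  · linarith [hsmall N hN]
  have hmem : (σ : ℂ) + (t : ℂ) * I ∈ {s : ℂ | σ ≤ s.re} := by simp
  have d1 := hN₀ N hN.le _ hmem
  have d2 := hN₀ N₀ le_rfl _ hmem
  have d3 := dist_triangle (∑ k ∈ Finset.range N, LSeries.term a ((σ : ℂ) + (t : ℂ) * I) k)
    (F ((σ : ℂ) + (t : ℂ) * I))
    (∑ k ∈ Finset.range N₀, LSeries.term a ((σ : ℂ) + (t : ℂ) * I) k)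
  rw [dist_comm] at d1
  rw [dist_eq_norm] at d3
  have d4 := norm_le_norm_add_norm_sub'
    (∑ k ∈ Finset.range N, LSeries.term a ((σ : ℂ) + (t : ℂ) * I) k)
    (∑ k ∈ Finset.range N₀, LSeries.term a ((σ : ℂ) + (t : ℂ) * I) k)
  linarith [hsmall N₀ le_rfl]

end FA.BohrStrip

end
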