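import Fermat.Agent.ExplicitFormula.Residue

/-!
# The truncated Perron kernel
-/

set_option autoImplicit false

noncomputable section

open Complex MeasureTheory Filter Topology Set
open scoped Real
open FA.ExplicitFormula (boxInt boxInt_eq_zero boxInt_residue)

namespace FA.BohrStrip

variable {c T l : ℝ}

/-- `cexp (w l) / w`. -/
def kernelFn (l : ℝ) (w : ℂ) : ℂ := cexp (w * (l : ℂ)) / (w - 0)

theorem norm_kernelFn_le (hT : 0 < T) (l : ℝ) {w : ℂ} (hw : T ≤ ‖w‖) :
    ‖kernelFn l w‖ ≤ Real.exp (w.re * l) / T := by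
  rw [kernelFn, sub_zero, norm_div, Complex.norm_exp, show (w * (l : ℂ)).re = w.re * l by simp]
  exact div_le_div_of_nonneg_left (Real.exp_pos _).le hT hw

theorem integral_exp_mul_const (hl : l ≠ 0) (a b : ℝ) :
    ∫ u in a..b, Real.exp (u * l) = (Real.exp (b * l) - Real.exp (a * l)) / l := by
  rw [intervalIntegral.integral_comp_mul_right Real.exp hl, integral_exp, smul_eq_mul,
    div_eq_inv_mul]

theorem norm_side_le (hT : 0 < T) (hl : l ≠ 0) {a b y : ℝ} (hab : a ≤ b) (hy : |y| = T) :
    ‖∫ u in a..b, kernelFn l ((u : ℂ) + (y : ℂ) * I)‖ ≤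
      (Real.exp (b * l) - Real.exp (a * l)) / l / T := by
  refine (intervalIntegral.norm_integral_le_of_norm_le hab (g := fun u => Real.exp (u * l) / T)
    (Eventually.of_forall fun u _ => ?_) (Continuous.intervalIntegrable (by fun_prop) _ _)).trans
      (le_of_eq ?_)
  · refine (norm_kernelFn_le hT l ?_).trans (le_of_eq (by simp))
    refine le_trans (le_of_eq hy.symm) ?_
    simpa using abs_im_le_norm ((u : ℂ) + (y : ℂ) * I)
  · rw [intervalIntegral.integral_div, integral_exp_mul_const hl]

theorem norm_far_le {R : ℝ} (hT : 0 ≤ T) (hR : 0 < |R|) :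
    ‖∫ y in (-T)..T, kernelFn l ((R : ℂ) + (y : ℂ) * I)‖ ≤
      Real.exp (R * l) / |R| * (2 * T) := by
  refine (intervalIntegral.norm_integral_le_of_norm_le_const fun y _ => ?_).trans (le_of_eq ?_)
    (b := Real.exp (R * l) / |R| * |T - -T|)
  · refine (norm_kernelFn_le hR l ?_).trans (le_of_eq (by simp))
    simpa using abs_re_le_norm ((R : ℂ) + (y : ℂ) * I)
  · rw [sub_neg_eq_add, abs_of_nonneg (show 0 ≤ T + T by linarith), two_mul]

theorem differentiableAt_kernelFn {w : ℂ} (hw : w ≠ 0) :
    DifferentiableAt ℂ (kernelFn l) w := by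
  unfold kernelFn
  exact ((differentiableAt_id.mul_const _).cexp).div (differentiableAt_id.sub_const 0)
    (by simpa using hw)

/-- **The kernel.** -/
theorem norm_perron_sub_le (hc : 0 < c) (hT : 0 < T) (hl : l ≠ 0) :
    ‖I * (∫ y in (-T)..T, cexp (((c : ℂ) + (y : ℂ) * I) * (l : ℂ)) / ((c : ℂ) + (y : ℂ) * I)) -
        (if 0 < l then 2 * π * I else 0)‖ ≤ 2 * Real.exp (c * l) / (T * |l|) := by
  have he : ∀ y : ℝ, cexp (((c : ℂ) + (y : ℂ) * I) * (l : ℂ)) / ((c : ℂ) + (y : ℂ) * I) =
      kernelFn l ((c : ℂ) + (y : ℂ) * I) := fun y => by rw [kernelFn, sub_zero]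
  simp only [he]
  obtain ⟨J, hJ⟩ : ∃ J, J = ∫ y in (-T)..T, kernelFn l ((c : ℂ) + (y : ℂ) * I) := ⟨_, rfl⟩
  rw [← hJ]
  rcases lt_or_gt_of_ne hl with hneg | hpos
  · rw [if_neg hneg.le.not_gt, sub_zero]
    have hlim : Tendsto (fun R : ℝ =>
        2 * Real.exp (c * l) / (T * |l|) + Real.exp (R * l) / R * (2 * T)) atTop
        (𝓝 (2 * Real.exp (c * l) / (T * |l|) + 0 * 0 * (2 * T))) := by
      refine tendsto_const_nhds.add (Tendsto.mul_const _ ?_)
      simp only [div_eq_mul_inv]
      exact (Real.tendsto_exp_atBot.comp (tendsto_id.atTop_mul_const_of_neg hneg)).mul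
        tendsto_inv_atTop_zero
    rw [zero_mul, zero_mul, add_zero] at hlim
    refine ge_of_tendsto hlim ?_
    filter_upwards [eventually_ge_atTop c] with R hR
    have hbox : boxInt (kernelFn l) c R T = 0 := boxInt_eq_zero hR hT.le fun w hw _ =>
      differentiableAt_kernelFn fun e => by
        have := hw.1
        rw [e, zero_re] at this
        linarith
    rw [boxInt, ← hJ] at hbox
    have e : I * J = (∫ u in c..R, kernelFn l ((u : ℂ) + ((-T : ℝ) : ℂ) * I)) -
        (∫ u in c..R, kernelFn l ((u : ℂ) + (T : ℂ) * I)) +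
          I * ∫ y in (-T)..T, kernelFn l ((R : ℂ) + (y : ℂ) * I) := by
      linear_combination -hbox
    rw [e]
    refine (norm_add_le _ _).trans (add_le_add ((norm_sub_le _ _).trans ?_) ?_)
    · refine (add_le_add (norm_side_le hT hl hR (by simp [abs_of_pos hT]))
        (norm_side_le hT hl hR (abs_of_pos hT))).trans ?_
      rw [abs_of_neg hneg, ← two_mul, div_div, mul_comm T, mul_div_assoc' 2,
        show (2 * (Real.exp (R * l) - Real.exp (c * l))) / (l * T) =
          (2 * (Real.exp (c * l) - Real.exp (R * l))) / (-l * T) by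
            rw [show (-l * T) = -(l * T) by ring, div_neg, ← neg_div]; ring]
      exact div_le_div_of_nonneg_right (by linarith [Real.exp_pos (R * l)])
        (by nlinarith)
    · rw [norm_mul, Complex.norm_I, one_mul]
      refine (norm_far_le hT.le (by rw [abs_pos]; linarith)).trans_eq ?_
      rw [abs_of_pos (by linarith)]
  · rw [if_pos hpos]
    have hlim : Tendsto (fun R : ℝ =>
        2 * Real.exp (c * l) / (T * |l|) + Real.exp (-R * l) / R * (2 * T)) atTop
        (𝓝 (2 * Real.exp (c * l) / (T * |l|) + 0 * 0 * (2 * T))) := by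
      refine tendsto_const_nhds.add (Tendsto.mul_const _ ?_)
      simp only [div_eq_mul_inv]
      exact (Real.tendsto_exp_atBot.comp (tendsto_neg_atTop_atBot.atBot_mul_const hpos)).mul
        tendsto_inv_atTop_zero
    rw [zero_mul, zero_mul, add_zero] at hlim
    refine ge_of_tendsto hlim ?_
    filter_upwards [eventually_gt_atTop 0] with R hR
    have hbox : boxInt (kernelFn l) (-R) c T = 2 * π * I := by
      have h1 := boxInt_residue (φ := fun w => cexp (w * (l : ℂ))) (a := -R) (b := c) (T := T)
        isOpen_univ (Differentiable.differentiableOn (by fun_prop)) (fun s _ _ => mem_univ s) hT.le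
        (ρ := 0) (by simpa using hR) (by simpa using hc) (by simpa using hT.ne)
      rw [if_pos (by simpa using hT), zero_mul, Complex.exp_zero, mul_one] at h1
      exact h1
    rw [boxInt, ← hJ] at hbox
    have e : I * J - 2 * π * I = -((∫ u in (-R)..c, kernelFn l ((u : ℂ) + ((-T : ℝ) : ℂ) * I)) -
        (∫ u in (-R)..c, kernelFn l ((u : ℂ) + (T : ℂ) * I))) +
          I * ∫ y in (-T)..T, kernelFn l (((-R : ℝ) : ℂ) + (y : ℂ) * I) := by
      linear_combination hbox
    rw [e]
    refine (norm_add_le _ _).trans (add_le_add ?_ ?_)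
    · rw [norm_neg]
      refine (norm_sub_le _ _).trans ((add_le_add
        (norm_side_le hT hl (show -R ≤ c by linarith) (by simp [abs_of_pos hT]))
        (norm_side_le hT hl (show -R ≤ c by linarith) (abs_of_pos hT))).trans ?_)
      rw [abs_of_pos hpos, ← two_mul, div_div, mul_comm T, mul_div_assoc' 2]
      exact div_le_div_of_nonneg_right (by linarith [Real.exp_pos (-R * l)]) (by positivity)
    · rw [norm_mul, Complex.norm_I, one_mul]
      refine (norm_far_le hT.le (by rw [abs_pos]; linarith)).trans_eq ?_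
      rw [abs_neg, abs_of_pos hR]

end FA.BohrStrip

end
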