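import Fermat.Agent.BohrStrip.Perron
import Mathlib.NumberTheory.LSeries.Convergence

/-!
# Bohr's theorem: boundedness gives uniform convergence
-/

set_option autoImplicit false

noncomputable section

open Complex MeasureTheory Filter Topology Set
open scoped Real
open FA.ExplicitFormula (boxInt boxInt_residue)

namespace FA.BohrStrip

variable {a : ℕ → ℂ} {F : ℂ → ℂ} {σ₀ σ₁ M : ℝ}

theorem one_add_abs_le (e y : ℝ) : min |e| 1 / 2 * (1 + |y|) ≤ ‖(e : ℂ) + (y : ℂ) * I‖ := by
  have h1 : |e| ≤ ‖(e : ℂ) + (y : ℂ) * I‖ := by simpa using abs_re_le_norm ((e : ℂ) + (y : ℂ) * I)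
  have h2 : |y| ≤ ‖(e : ℂ) + (y : ℂ) * I‖ := by simpa using abs_im_le_norm ((e : ℂ) + (y : ℂ) * I)
  nlinarith [min_le_left |e| 1, min_le_right |e| 1, abs_nonneg y,
    le_min (abs_nonneg e) zero_le_one]

theorem integral_inv_one_add_abs {T : ℝ} (hT : 0 ≤ T) :
    ∫ y in (-T)..T, (1 + |y|)⁻¹ = 2 * Real.log (1 + T) := by
  have hc : Continuous fun y : ℝ => (1 + |y|)⁻¹ :=
    (by fun_prop : Continuous fun y : ℝ => 1 + |y|).inv₀ fun y => by positivity
  have h1 : ∫ y in (0 : ℝ)..T, (1 + |y|)⁻¹ = Real.log (1 + T) := by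
    rw [intervalIntegral.integral_congr (g := fun y => (1 + y)⁻¹) fun y hy => by
      rw [uIcc_of_le hT] at hy
      simp only [abs_of_nonneg hy.1],
      intervalIntegral.integral_comp_add_left (fun y : ℝ => y⁻¹), add_zero,
      integral_inv_of_pos one_pos (by linarith), div_one]
  have h2 : ∫ y in (-T)..0, (1 + |y|)⁻¹ = Real.log (1 + T) := by
    rw [← h1]
    conv_rhs => rw [← neg_neg T, ← neg_zero, ← intervalIntegral.integral_comp_neg]
    simp
  rw [← intervalIntegral.integral_add_adjacent_intervals (hc.intervalIntegrable _ _)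
    (hc.intervalIntegrable _ _), h1, h2, two_mul]

/-- `1 / |log (x / n)| ≤ 4 x` at a half-integer. -/
theorem inv_abs_log_le {N n : ℕ} (hN : 2 ≤ N) (hn : n ≠ 0) :
    (0 < Real.log (N - 1 / 2) - Real.log n ↔ n < N) ∧
      Real.log (N - 1 / 2) - Real.log n ≠ 0 ∧
        |Real.log (N - 1 / 2) - Real.log n|⁻¹ ≤ 4 * (N - 1 / 2) := by
  have hN' : (2 : ℝ) ≤ N := by exact_mod_cast hN
  obtain ⟨x, hx⟩ : ∃ x : ℝ, x = N - 1 / 2 := ⟨_, rfl⟩
  rw [← hx]
  have hx0 : 0 < x := by linarith
  have hn' : (1 : ℝ) ≤ n := by exact_mod_cast Nat.one_le_iff_ne_zero.2 hn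
  rcases lt_or_ge n N with h | h
  · have h' : (n : ℝ) ≤ x - 1 / 2 := by
      have : (n : ℝ) + 1 ≤ N := by exact_mod_cast h
      linarith
    have hl : 1 / (4 * x) ≤ Real.log x - Real.log n := by
      rw [← Real.log_div hx0.ne' (by positivity)]
      refine le_trans ?_ (Real.one_sub_inv_le_log_of_pos (by positivity))
      rw [inv_div, one_sub_div hx0.ne', div_le_div_iff₀ (by positivity) hx0]
      nlinarith
    have hp : 0 < Real.log x - Real.log n := lt_of_lt_of_le (by positivity) hl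
    refine ⟨by simp [hp, h], hp.ne', ?_⟩
    rw [abs_of_pos hp]
    exact (inv_anti₀ (by positivity) hl).trans_eq (by rw [one_div, inv_inv])
  · have h' : x + 1 / 2 ≤ n := by
      have : (N : ℝ) ≤ n := by exact_mod_cast h
      linarith
    have hl : 1 / (4 * x) ≤ Real.log n - Real.log x := by
      rw [← Real.log_div (by positivity) hx0.ne']
      refine le_trans ?_ (Real.one_sub_inv_le_log_of_pos (by positivity))
      rw [inv_div, one_sub_div (by positivity), div_le_div_iff₀ (by positivity) (by positivity)]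
      nlinarith
    have hp : 0 < Real.log n - Real.log x := lt_of_lt_of_le (by positivity) hl
    refine ⟨by simp only [h.not_gt, iff_false, not_lt]; linarith, by linarith, ?_⟩
    rw [abs_of_neg (by linarith), neg_sub]
    exact (inv_anti₀ (by positivity) hl).trans_eq (by rw [one_div, inv_inv])

/-- The kernel at `log x - log n`. -/
def perronInt (c T L : ℝ) (n : ℕ) : ℂ :=
  I * ∫ y in (-T)..T, cexp (((c : ℂ) + (y : ℂ) * I) * ((L - Real.log n : ℝ) : ℂ)) /
    ((c : ℂ) + (y : ℂ) * I)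

theorem term_shift (a : ℕ → ℂ) (s w : ℂ) (L : ℝ) (n : ℕ) :
    LSeries.term a (s + w) n * cexp (w * (L : ℂ)) =
      LSeries.term a s n * cexp (w * ((L - Real.log n : ℝ) : ℂ)) := by
  rcases eq_or_ne n 0 with rfl | hn
  · simp
  rw [LSeries.term_of_ne_zero hn, LSeries.term_of_ne_zero hn,
    cpow_add _ _ (Nat.cast_ne_zero.2 hn), div_mul_eq_div_div, ofReal_sub, mul_sub, Complex.exp_sub,
    cpow_def_of_ne_zero (Nat.cast_ne_zero.2 hn) w, ← natCast_log, mul_comm (Real.log n : ℂ) w]
  field_simp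

/-- The right side, term by term. -/
theorem hasSum_right (hsum : LSeriesSummable a (σ₁ : ℂ)) {c T L : ℝ} (hc : 0 < c) {s : ℂ}
    (hs : σ₁ ≤ s.re + c) :
    HasSum (fun n => LSeries.term a s n * perronInt c T L n)
      (I * ∫ y in (-T)..T, LSeries a (s + ((c : ℂ) + (y : ℂ) * I)) *
        cexp (((c : ℂ) + (y : ℂ) * I) * (L : ℂ)) / ((c : ℂ) + (y : ℂ) * I)) := by
  have hne : ∀ y : ℝ, (c : ℂ) + (y : ℂ) * I ≠ 0 := fun y e => hc.ne' (by
    simpa using congrArg Complex.re e)
  have h := intervalIntegral.hasSum_integral_of_dominated_convergence (μ := volume)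
    (a := -T) (b := T)
    (F := fun (n : ℕ) (y : ℝ) => LSeries.term a s n *
      (cexp (((c : ℂ) + (y : ℂ) * I) * ((L - Real.log n : ℝ) : ℂ)) / ((c : ℂ) + (y : ℂ) * I)))
    (f := fun y : ℝ => LSeries a (s + ((c : ℂ) + (y : ℂ) * I)) *
      cexp (((c : ℂ) + (y : ℂ) * I) * (L : ℂ)) / ((c : ℂ) + (y : ℂ) * I))
    (fun n _ => ‖LSeries.term a (σ₁ : ℂ) n‖ * (Real.exp (c * L) / c))
    (fun n => (continuous_const.mul ((by fun_prop : Continuous fun y : ℝ =>
      cexp (((c : ℂ) + (y : ℂ) * I) * ((L - Real.log n : ℝ) : ℂ))).div₀ (by fun_prop)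
        hne)).aestronglyMeasurable)
    (fun n => Eventually.of_forall fun y _ => ?_)
    (Eventually.of_forall fun y _ => hsum.norm.mul_right _)
    intervalIntegrable_const
    (Eventually.of_forall fun y _ => ?_)
  · refine (h.mul_left I).congr_fun fun n => ?_
    rw [intervalIntegral.integral_const_mul, perronInt]
    ring
  · rw [← mul_div_assoc, ← term_shift, norm_div, norm_mul, Complex.norm_exp,
      show (((c : ℂ) + (y : ℂ) * I) * (L : ℂ)).re = c * L by simp, mul_div_assoc]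
    refine mul_le_mul (LSeries.norm_term_le_of_re_le_re a (by simpa using hs) n) ?_
      (by positivity) (norm_nonneg _)
    exact div_le_div_of_nonneg_left (Real.exp_pos _).le hc
      (by simpa [abs_of_pos hc] using abs_re_le_norm ((c : ℂ) + (y : ℂ) * I))
  · have hh := ((hsum.of_re_le_re (s' := s + ((c : ℂ) + (y : ℂ) * I))
      (by simpa using hs)).hasSum.mul_right
        (cexp (((c : ℂ) + (y : ℂ) * I) * (L : ℂ)))).div_const ((c : ℂ) + (y : ℂ) * I)
    exact hh.congr_fun fun n => by rw [← mul_div_assoc, term_shift]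

/-- Against the partial sum. -/
theorem norm_right_sub_le (hsum : LSeriesSummable a (σ₁ : ℂ)) {c T : ℝ} (hc : 0 < c) (hT : 0 < T)
    {N : ℕ} (hN : 2 ≤ N) {s : ℂ} (hs : σ₁ ≤ s.re + c) :
    ‖(I * ∫ y in (-T)..T, LSeries a (s + ((c : ℂ) + (y : ℂ) * I)) *
        cexp (((c : ℂ) + (y : ℂ) * I) * (Real.log (N - 1 / 2) : ℂ)) / ((c : ℂ) + (y : ℂ) * I)) -
      2 * π * I * ∑ n ∈ Finset.range N, LSeries.term a s n‖ ≤
      8 * (N - 1 / 2) * Real.exp (c * Real.log (N - 1 / 2)) / T *
        ∑' n, ‖LSeries.term a (σ₁ : ℂ) n‖ := by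
  classical
  have h2 : HasSum (fun n => if n < N then LSeries.term a s n * (2 * π * I) else 0)
      (2 * π * I * ∑ n ∈ Finset.range N, LSeries.term a s n) := by
    have h3 := hasSum_sum_of_ne_finset_zero (L := SummationFilter.unconditional ℕ)
      (f := fun n => if n < N then LSeries.term a s n * (2 * π * I) else 0)
      (s := Finset.range N) fun n hn => if_neg fun h => hn (Finset.mem_range.2 h)
    rw [Finset.sum_ite_of_true (fun n hn => Finset.mem_range.1 hn), ← Finset.sum_mul] at h3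
    rw [mul_comm (2 * π * I : ℂ)]
    exact h3
  have hd := (hasSum_right hsum hc (T := T) (L := Real.log (N - 1 / 2)) hs).sub h2
  rw [← hd.tsum_eq]
  refine tsum_of_norm_bounded (hsum.norm.hasSum.mul_left _) fun n => ?_
  rcases eq_or_ne n 0 with rfl | hn
  · simp
  obtain ⟨hiff, hne, hinv⟩ := inv_abs_log_le hN hn
  have hN' : (0 : ℝ) < N - 1 / 2 := by
    have : (2 : ℝ) ≤ N := by exact_mod_cast hN
    linarith
  have hk := norm_perron_sub_le hc hT hne
  rw [show (if n < N then LSeries.term a s n * (2 * π * I) else 0) = LSeries.term a s n *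
      (if 0 < Real.log (N - 1 / 2) - Real.log n then 2 * π * I else 0) by
        simp only [hiff, mul_ite, mul_zero], ← mul_sub,
    norm_mul]
  refine (mul_le_mul_of_nonneg_left hk (norm_nonneg _)).trans ?_
  have e : ‖LSeries.term a s n‖ * Real.exp (c * (Real.log (N - 1 / 2) - Real.log n)) =
      ‖LSeries.term a (s + c) n‖ * Real.exp (c * Real.log (N - 1 / 2)) := by
    have := congrArg norm (term_shift a s c (Real.log (N - 1 / 2)) n)
    simpa [Complex.norm_exp, Complex.log_re] using this.symm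
  calc ‖LSeries.term a s n‖ * (2 * Real.exp (c * (Real.log (N - 1 / 2) - Real.log n)) /
        (T * |Real.log (N - 1 / 2) - Real.log n|))
      = ‖LSeries.term a s n‖ * Real.exp (c * (Real.log (N - 1 / 2) - Real.log n)) *
          (2 / T * |Real.log (N - 1 / 2) - Real.log n|⁻¹) := by ring
    _ ≤ ‖LSeries.term a (σ₁ : ℂ) n‖ * Real.exp (c * Real.log (N - 1 / 2)) *
          (2 / T * (4 * (N - 1 / 2))) := by
        rw [e]
        exact mul_le_mul (mul_le_mul_of_nonneg_right
          (LSeries.norm_term_le_of_re_le_re a (by simpa using hs) n) (Real.exp_pos _).le)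
          (mul_le_mul_of_nonneg_left hinv (by positivity)) (by positivity) (by positivity)
    _ = _ := by ring

/-- **The error of a partial sum, uniformly.** -/
theorem exists_sub_le (hsum : LSeriesSummable a (σ₁ : ℂ))
    (hF : DifferentiableOn ℂ F {s : ℂ | σ₀ < s.re}) (hM : ∀ s : ℂ, σ₀ < s.re → ‖F s‖ ≤ M)
    (heq : ∀ s : ℂ, σ₀ < s.re → σ₁ ≤ s.re → F s = LSeries a s) {ε : ℝ} (hε : 0 < ε) :
    ∃ C e : ℝ, 0 < e ∧ ∀ N : ℕ, 4 ≤ N → ∀ s : ℂ, σ₀ + ε ≤ s.re →
      ‖F s - ∑ n ∈ Finset.range N, LSeries.term a s n‖ ≤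
        C * ((1 + Real.log (N - 1 / 2)) * Real.exp (-e * Real.log (N - 1 / 2))) := by
  obtain ⟨c, hc⟩ : ∃ c, c = max (σ₁ - σ₀) 0 + 1 := ⟨_, rfl⟩
  have hc0 : 1 ≤ c := by linarith [le_max_right (σ₁ - σ₀) 0]
  obtain ⟨e, he⟩ : ∃ e, e = min ε 1 / 2 := ⟨_, rfl⟩
  have he0 : 0 < e := by
    have := lt_min hε one_pos
    linarith
  have he1 : e ≤ 1 / 2 := by linarith [min_le_right ε 1]
  have heε : e < ε := by linarith [min_le_left ε 1]
  have hM0 : 0 ≤ M := (norm_nonneg _).trans (hM ((σ₀ + 1 : ℝ) : ℂ) (by simp))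
  obtain ⟨A, hA⟩ : ∃ A, A = ∑' n, ‖LSeries.term a (σ₁ : ℂ) n‖ := ⟨_, rfl⟩
  have hA0 : 0 ≤ A := hA ▸ tsum_nonneg fun _ => norm_nonneg _
  refine ⟨8 * A + 2 * M * (c + 1) + 4 * M / e * (c + 3), e, he0,
    fun N hN s hs => ?_⟩
  obtain ⟨x, hx⟩ : ∃ x : ℝ, x = N - 1 / 2 := ⟨_, rfl⟩
  have hx3 : 3 ≤ x := by
    have : (4 : ℝ) ≤ N := by exact_mod_cast hN
    linarith
  obtain ⟨L, hL⟩ : ∃ L, L = Real.log x := ⟨_, rfl⟩
  have hL1 : 1 ≤ L := by
    rw [hL, Real.le_log_iff_exp_le (by linarith)]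
    linarith [Real.exp_one_lt_d9]
  have hxL : x = Real.exp L := by rw [hL, Real.exp_log (by linarith)]
  obtain ⟨T, hT⟩ : ∃ T, T = Real.exp ((c + 2) * L) := ⟨_, rfl⟩
  have hT0 : 0 < T := hT ▸ Real.exp_pos _
  rw [← hx, ← hL]
  obtain ⟨g, hg⟩ : ∃ g : ℂ → ℂ,
      g = fun w => F (s + w) * cexp (w * (L : ℂ)) / (w - 0) := ⟨_, rfl⟩
  have hUo : IsOpen {w : ℂ | σ₀ < (s + w).re} :=
    isOpen_lt continuous_const (Complex.continuous_re.comp (continuous_const.add continuous_id))
  have hd : DifferentiableOn ℂ (fun w => F (s + w) * cexp (w * (L : ℂ)))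
      {w : ℂ | σ₀ < (s + w).re} :=
    (hF.comp ((differentiable_id.const_add s).differentiableOn) fun w hw => hw).mul
      (Differentiable.differentiableOn (by fun_prop))
  have hbox : boxInt g (-e) c T = 2 * π * I * F s := by
    have h1 := boxInt_residue (a := -e) (b := c) (T := T) hUo hd (fun w hw _ => by
      show σ₀ < (s + w).re
      rw [add_re]
      linarith [hw.1]) hT0.le (ρ := 0) (by simpa using he0) (by simp; linarith)
      (by simpa using hT0.ne)
    rw [if_pos (by simpa using hT0), add_zero, zero_mul, Complex.exp_zero, mul_one] at h1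
    exact hg ▸ h1
  have hside : ∀ y : ℝ, |y| = T → ‖∫ u in (-e)..c, g ((u : ℂ) + (y : ℂ) * I)‖ ≤
      M * (c + 1) * Real.exp (-L) := fun y hy => by
    refine (intervalIntegral.norm_integral_le_of_norm_le_const (C := M * Real.exp (c * L) / T)
      fun u hu => ?_).trans ?_
    · rw [uIoc_of_le (by linarith)] at hu
      simp only [hg, sub_zero, norm_div, norm_mul, Complex.norm_exp]
      refine div_le_div₀ (by positivity) (mul_le_mul (hM _ ?_) (Real.exp_le_exp.2 ?_)
        (Real.exp_pos _).le hM0) hT0 ?_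
      · simp
        linarith [hu.1]
      · simp
        exact mul_le_mul_of_nonneg_right hu.2 (by linarith)
      · refine le_trans (le_of_eq hy.symm) ?_
        simpa using abs_im_le_norm ((u : ℂ) + (y : ℂ) * I)
    · rw [abs_of_pos (by linarith), hT, mul_div_assoc, ← Real.exp_sub, mul_assoc M (c + 1),
        mul_comm (c + 1), mul_assoc M]
      refine mul_le_mul_of_nonneg_left (mul_le_mul (Real.exp_le_exp.2 ?_) (by linarith)
        (by linarith) (Real.exp_pos _).le) hM0
      linarith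
  have hleft : ‖∫ y in (-T)..T, g (((-e : ℝ) : ℂ) + (y : ℂ) * I)‖ ≤
      4 * M / e * (c + 3) * ((1 + L) * Real.exp (-e * L)) := by
    refine (intervalIntegral.norm_integral_le_of_norm_le (by linarith)
      (g := fun y => 2 * M / e * Real.exp (-e * L) * (1 + |y|)⁻¹)
      (Eventually.of_forall fun y _ => ?_) ?_).trans ?_
    · simp only [hg, sub_zero, norm_div, norm_mul, Complex.norm_exp]
      rw [show ((((-e : ℝ) : ℂ) + (y : ℂ) * I) * (L : ℂ)).re = -e * L by simp]
      have h1 := one_add_abs_le (-e) y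
      rw [abs_neg, abs_of_pos he0, min_eq_left (by linarith)] at h1
      refine (div_le_div₀ (by positivity) (mul_le_mul_of_nonneg_right (hM _ ?_)
        (Real.exp_pos _).le) (by positivity) h1).trans (le_of_eq ?_)
      · simp
        linarith
      · field_simp
    · exact (continuous_const.mul ((by fun_prop : Continuous fun y : ℝ => 1 + |y|).inv₀
        fun y => by positivity)).intervalIntegrable _ _
    · rw [intervalIntegral.integral_const_mul, integral_inv_one_add_abs hT0.le]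
      have h2 : Real.log (1 + T) ≤ (c + 3) * (1 + L) := by
        refine (Real.log_le_log (by positivity) (show 1 + T ≤ Real.exp (1 + (c + 2) * L) by
          have h1T : 1 ≤ T := hT ▸ Real.one_le_exp (by positivity)
          rw [Real.exp_add, ← hT]
          nlinarith [Real.exp_one_gt_d9])).trans ?_
        rw [Real.log_exp]
        nlinarith
      calc 2 * M / e * Real.exp (-e * L) * (2 * Real.log (1 + T))
          ≤ 2 * M / e * Real.exp (-e * L) * (2 * ((c + 3) * (1 + L))) := by gcongr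
        _ = _ := by ring
  have hright := norm_right_sub_le hsum (c := c) (by linarith) hT0 (N := N) (by omega) (s := s)
    (by linarith [le_max_left (σ₁ - σ₀) 0])
  rw [← hx, ← hL, ← hA] at hright
  have hR : ∀ y : ℝ, LSeries a (s + ((c : ℂ) + (y : ℂ) * I)) *
      cexp (((c : ℂ) + (y : ℂ) * I) * (L : ℂ)) / ((c : ℂ) + (y : ℂ) * I) =
      g ((c : ℂ) + (y : ℂ) * I) := fun y => by
    simp only [hg, sub_zero]
    rw [heq]
    · simp
      linarith
    · simp
      linarith [le_max_left (σ₁ - σ₀) 0]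
  simp only [hR] at hright
  rw [boxInt] at hbox
  obtain ⟨S, hS⟩ : ∃ S, S = ∑ n ∈ Finset.range N, LSeries.term a s n := ⟨_, rfl⟩
  rw [← hS] at hright ⊢
  have e1 : 2 * π * I * (F s - S) =
      ((I * ∫ y in (-T)..T, g ((c : ℂ) + (y : ℂ) * I)) - 2 * π * I * S) +
        ((∫ u in (-e)..c, g ((u : ℂ) + ((-T : ℝ) : ℂ) * I)) -
          ∫ u in (-e)..c, g ((u : ℂ) + (T : ℂ) * I)) -
        I * ∫ y in (-T)..T, g (((-e : ℝ) : ℂ) + (y : ℂ) * I) := by
    linear_combination -hbox
  have h2π : ‖F s - S‖ ≤ ‖2 * π * I * (F s - S)‖ := by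
    rw [norm_mul (2 * π * I : ℂ)]
    refine le_mul_of_one_le_left (norm_nonneg _) ?_
    simp [abs_of_pos Real.pi_pos]
    linarith [Real.pi_gt_three]
  refine h2π.trans ?_
  rw [e1]
  refine ((norm_sub_le _ _).trans (add_le_add ((norm_add_le _ _).trans (add_le_add hright
    ((norm_sub_le _ _).trans (add_le_add (hside (-T) (by simp [abs_of_pos hT0]))
      (hside T (abs_of_pos hT0)))))) ((norm_mul _ _).trans_le (by
        rw [Complex.norm_I, one_mul])))).trans ?_
  have hE : Real.exp (-L) ≤ (1 + L) * Real.exp (-e * L) :=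
    (le_mul_of_one_le_left (Real.exp_pos _).le (by linarith : (1 : ℝ) ≤ 1 + L)).trans
      (mul_le_mul_of_nonneg_left (Real.exp_le_exp.2 (by nlinarith)) (by linarith))
  have h1 : 8 * x * Real.exp (c * L) / T * A = 8 * A * Real.exp (-L) := by
    rw [hxL, hT, mul_assoc 8 (Real.exp L), ← Real.exp_add, mul_div_assoc, ← Real.exp_sub]
    ring_nf
  rw [h1]
  have h3 := mul_le_mul_of_nonneg_left hE (show 0 ≤ 8 * A + 2 * M * (c + 1) by positivity)
  linarith

/-- **Bohr's theorem.** -/
theorem tendstoUniformlyOn_of_bounded (hsum : LSeriesSummable a (σ₁ : ℂ))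
    (hF : DifferentiableOn ℂ F {s : ℂ | σ₀ < s.re}) (hM : ∀ s : ℂ, σ₀ < s.re → ‖F s‖ ≤ M)
    (heq : ∀ s : ℂ, σ₀ < s.re → σ₁ ≤ s.re → F s = LSeries a s) {ε : ℝ} (hε : 0 < ε) :
    TendstoUniformlyOn (fun N s => ∑ n ∈ Finset.range N, LSeries.term a s n) F atTop
      {s : ℂ | σ₀ + ε ≤ s.re} := by
  obtain ⟨C, e, he, hC⟩ := exists_sub_le hsum hF hM heq hε
  rw [Metric.tendstoUniformlyOn_iff]
  intro η hη
  have hL : Tendsto (fun N : ℕ => Real.log ((N : ℝ) - 1 / 2)) atTop atTop :=
    Real.tendsto_log_atTop.comp (tendsto_atTop_add_const_right _ _ tendsto_natCast_atTop_atTop)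
  have hlim : Tendsto (fun N : ℕ => C *
      ((1 + Real.log ((N : ℝ) - 1 / 2)) * Real.exp (-e * Real.log ((N : ℝ) - 1 / 2)))) atTop
      (𝓝 (C * 0)) := by
    refine Tendsto.const_mul C ?_
    have h0 := (Real.tendsto_pow_mul_exp_neg_atTop_nhds_zero 0).comp
      (tendsto_id.const_mul_atTop he)
    have h1 := ((Real.tendsto_pow_mul_exp_neg_atTop_nhds_zero 1).comp
      (tendsto_id.const_mul_atTop he)).const_mul e⁻¹
    have h2 := (h0.add h1).comp hL
    rw [mul_zero, add_zero] at h2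
    refine h2.congr fun N => ?_
    simp only [Function.comp_apply, id, pow_zero, pow_one, one_mul, neg_mul]
    field_simp
  rw [mul_zero] at hlim
  filter_upwards [hlim.eventually (eventually_lt_nhds hη), eventually_ge_atTop 4] with N hN h4 s hs
  rw [dist_eq_norm]
  exact (hC N h4 s hs).trans_lt hN

end FA.BohrStrip

end
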