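import Fermat.Agent.BohrStrip.Chirp
import Fermat.Agent.BohrStrip.Uniform
import Fermat.Agent.BohrStrip.MeanValue
import Mathlib.NumberTheory.Chebyshev

/-!
# A series with the widest strip

Chirp polynomials of degree `m → ∞` on separated ranges of primes: bounded on every
`re s ≥ 1/2 + ε`, absolutely convergent only for `re s > 1`.
-/

set_option autoImplicit false

noncomputable section

open Complex Filter Topology Set
open scoped Nat.Prime Function

namespace FA.BohrStrip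

/-- There are `m r ^ m` primes in `(r ^ m, r ^ (m + 1)]` for large `r`. -/
theorem eventually_many_primes (m : ℕ) : ∀ᶠ r : ℕ in atTop,
    m * r ^ m ≤ ((Finset.Ioc (r ^ m) (r ^ (m + 1))).filter Nat.Prime).card := by
  have hδ : (0 : ℝ) < 1 / (8 * (m + 1) ^ 2) := by positivity
  filter_upwards [tendsto_natCast_atTop_atTop.eventually
    (Real.isLittleO_log_id_atTop.bound hδ), eventually_ge_atTop 4] with r hlog hr
  have hr4 : (4 : ℝ) ≤ r := by exact_mod_cast hr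
  rw [id, Real.norm_of_nonneg (Real.log_natCast_nonneg r),
    Real.norm_of_nonneg (Nat.cast_nonneg r)] at hlog
  obtain ⟨n, hn⟩ : ∃ n, n = r ^ (m + 1) := ⟨_, rfl⟩
  rw [← hn]
  have hn4 : 4 ≤ n := hn ▸ hr.trans (Nat.le_self_pow (by omega) r)
  have hn' : (n : ℝ) = (r : ℝ) ^ (m + 1) := by rw [hn]; push_cast; rfl
  have hlogn : Real.log n = (m + 1) * Real.log r := by
    rw [hn', Real.log_pow]
    push_cast
    ring
  have hn4' : (4 : ℝ) ≤ n := by exact_mod_cast hn4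
  have hlogn1 : Real.log (n + 1) ≤ Real.log 2 + Real.log n := by
    rw [← Real.log_mul two_ne_zero (by linarith)]
    exact Real.log_le_log (by linarith) (by linarith)
  have hkey : ((m + 1) * r ^ m : ℝ) ≤ π n := by
    refine le_trans ?_ (Chebyshev.pi_ge n)
    have hln0 : 0 < Real.log n := Real.log_pos (by linarith)
    rw [le_div_iff₀ hln0, hlogn]
    have hP : (1 : ℝ) ≤ (r : ℝ) ^ m := one_le_pow₀ (by linarith)
    have hl2 := Real.log_two_gt_d9
    have hl2' := Real.log_two_lt_d9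
    have h8 : 8 * ((m : ℝ) + 1) ^ 2 * Real.log r ≤ r := by
      rw [one_div_mul_eq_div, le_div_iff₀ (by positivity)] at hlog
      linarith
    have hl0 := Real.log_natCast_nonneg r
    have h9 := mul_le_mul_of_nonneg_left h8 (show 0 ≤ (r : ℝ) ^ m by positivity)
    have hm1 : ((m : ℝ) + 1) ≤ (m + 1) ^ 2 * (r : ℝ) ^ m := by
      have : ((m : ℝ) + 1) ≤ (m + 1) ^ 2 := by nlinarith [Nat.cast_nonneg (α := ℝ) m]
      nlinarith
    have hm2 := mul_le_mul_of_nonneg_right hm1 hl0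
    have hn2 : (4 : ℝ) ≤ (r : ℝ) ^ m * r := by rw [← pow_succ, ← hn']; exact hn4'
    rw [hlogn] at hlogn1
    rw [hn', pow_succ] at hlogn1 ⊢
    nlinarith
  have hsub : n.primesLE ⊆
      Finset.range (r ^ m + 1) \ {0} ∪ (Finset.Ioc (r ^ m) n).filter Nat.Prime := fun x hx => by
    obtain ⟨h1, h2⟩ := Nat.mem_primesLE.1 hx
    rcases le_or_gt x (r ^ m) with h | h
    · exact Finset.mem_union_left _ (Finset.mem_sdiff.2
        ⟨Finset.mem_range.2 (by omega), by simpa using h2.ne_zero⟩)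
    · exact Finset.mem_union_right _ (Finset.mem_filter.2 ⟨Finset.mem_Ioc.2 ⟨h, h1⟩, h2⟩)
  have hc := (Finset.card_le_card hsub).trans (Finset.card_union_le _ _)
  rw [Nat.primesLE_card_eq_primeCounting, Finset.card_sdiff_of_subset (by simp),
    Finset.card_range, Finset.card_singleton, Nat.add_sub_cancel] at hc
  have hkey' : (m + 1) * r ^ m ≤ π n := by exact_mod_cast hkey
  rw [add_mul, one_mul] at hkey'
  omega

/-- **One block.** -/
theorem exists_block (i R : ℕ) : ∃ r : ℕ, R ≤ r ∧ ∃ (S : Finset ℕ) (w : ℕ → ℂ),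
    (∀ n ∈ S, r ^ ((i + 2) ^ 2) < n ∧ n ≤ r ^ ((i + 2) * (i + 3))) ∧
    S.card = r ^ ((i + 2) ^ 2) ∧ (∀ n ∈ S, ‖w n‖ = 1) ∧
    ∀ s : ℂ, 1 / 2 + 1 / (i + 2 : ℝ) ≤ s.re → ‖∑ n ∈ S, LSeries.term w s n‖ ≤ 1 / r := by
  obtain ⟨m, hm⟩ : ∃ m, m = i + 2 := ⟨_, rfl⟩
  obtain ⟨r, hcard, hr⟩ := ((eventually_many_primes m).and (eventually_ge_atTop (R + 2))).exists
  refine ⟨r, by omega, ?_⟩
  obtain ⟨p, hp⟩ : ∃ p, p = r ^ m := ⟨_, rfl⟩
  rw [← hp] at hcard
  have hr1 : 1 ≤ r := by omega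
  have hp0 : p ≠ 0 := hp ▸ pow_ne_zero _ (by omega)
  obtain ⟨e⟩ := Function.Embedding.nonempty_of_card_le
    (α := Fin m × Fin p) (β := {x // x ∈ (Finset.Ioc p (r ^ (m + 1))).filter Nat.Prime})
    (by simpa using hcard)
  obtain ⟨q, hq⟩ : ∃ q : ℕ → Fin p → ℕ,
      q = fun l j => if h : l < m then (e (⟨l, h⟩, j) : ℕ) else 1 := ⟨_, rfl⟩
  have hq' : ∀ l < m, ∀ j, (p < q l j ∧ q l j ≤ r ^ (m + 1)) ∧ (q l j).Prime := fun l hl j => by
    simpa [hq, dif_pos hl] using Finset.mem_filter.1 (e (⟨l, hl⟩, j)).2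
  subst hm
  have hinj : Function.Injective (pathNum q : (Fin (i + 1 + 1) → Fin p) → ℕ) :=
    pathNum_injective (fun l hl j => (hq' l hl j).2) fun l hl l' hl' j j' h => by
      simp only [hq, dif_pos hl, dif_pos hl'] at h
      obtain ⟨h1, h2⟩ := Prod.ext_iff.1 (e.injective (Subtype.ext h))
      exact ⟨congrArg Fin.val h1, h2⟩
  classical
  obtain ⟨S, hS⟩ : ∃ S : Finset ℕ,
      S = (Finset.univ : Finset (Fin (i + 1 + 1) → Fin p)).image (pathNum q) := ⟨_, rfl⟩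
  obtain ⟨w, hw⟩ : ∃ w : ℕ → ℂ, w = fun n =>
      ∑ J : Fin (i + 1 + 1) → Fin p, if pathNum q J = n then pathWt (i + 1) J else 0 := ⟨_, rfl⟩
  have hwJ : ∀ J, w (pathNum q J) = pathWt (i + 1) J := fun J => by
    simp only [hw]
    rw [Finset.sum_eq_single J (fun K _ hK => if_neg fun h => hK (hinj h))
      (fun h => absurd (Finset.mem_univ J) h), if_pos rfl]
  have hnum : ∀ J : Fin (i + 1 + 1) → Fin p,
      r ^ ((i + 2) ^ 2) < pathNum q J ∧ pathNum q J ≤ r ^ ((i + 2) * (i + 3)) := fun J => by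
    constructor
    · have h1 : ∏ _l : Fin (i + 1 + 1), p < pathNum q J :=
        Finset.prod_lt_prod_of_nonempty (s := (Finset.univ : Finset (Fin (i + 1 + 1))))
          (f := fun _ => p) (g := fun (l : Fin (i + 1 + 1)) => q l (J l))
          (fun _ _ => Nat.pos_of_ne_zero hp0)
          (fun l _ => (hq' l l.2 (J l)).1.1) Finset.univ_nonempty
      simpa [hp, ← pow_mul, sq] using h1
    · refine (Finset.prod_le_prod (fun _ _ => Nat.zero_le _)
        fun (l : Fin (i + 1 + 1)) _ => (hq' l l.2 (J l)).1.2).trans (le_of_eq ?_)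
      simp only [Finset.prod_const, Finset.card_univ, Fintype.card_fin, ← pow_mul]
      ring_nf
  refine ⟨S, w, fun n hn => ?_, ?_, fun n hn => ?_, fun s hs => ?_⟩
  · obtain ⟨J, -, rfl⟩ := Finset.mem_image.1 (hS ▸ hn)
    exact hnum J
  · rw [hS, Finset.card_image_of_injective _ hinj, Finset.card_univ, Fintype.card_fun,
      Fintype.card_fin, Fintype.card_fin, hp, ← pow_mul]
    ring_nf
  · obtain ⟨J, -, rfl⟩ := Finset.mem_image.1 (hS ▸ hn)
    rw [hwJ, norm_pathWt]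
  have e1 : ∑ n ∈ S, LSeries.term w s n = chirpPoly q s (i + 1) := by
    rw [hS, Finset.sum_image fun x _ y _ h => hinj h, chirpPoly]
    refine Finset.sum_congr rfl fun J _ => ?_
    rw [LSeries.term_of_ne_zero (by have := (hnum J).1; omega), hwJ, cpow_neg, div_eq_mul_inv]
  rw [e1]
  have hr0 : (0 : ℝ) < r := by exact_mod_cast hr1
  obtain ⟨ρ, hρ⟩ : ∃ ρ : ℝ, ρ = (p : ℝ) ^ (-s.re) := ⟨_, rfl⟩
  have hpos : (0 : ℝ) < p := Nat.cast_pos.2 (Nat.pos_of_ne_zero hp0)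
  have hσ : 1 / 2 ≤ s.re := le_trans (le_add_of_nonneg_right (by positivity)) hs
  have hsq := norm_chirpPoly_sq_le hp0 (q := q) (s := s) (ρ := ρ) (i := i + 1) fun l hl j => by
    have hql := (hq' l (by omega) j).1.1
    rw [norm_natCast_cpow_of_pos (by omega), neg_re, hρ]
    exact Real.rpow_le_rpow_of_nonpos hpos (Nat.cast_le.2 hql.le) (by linarith)
  refine (sq_le_sq₀ (norm_nonneg _) (by positivity)).1 (hsq.trans ?_)
  have hP : ((p : ℝ)) = (r : ℝ) ^ ((i : ℝ) + 2) := by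
    rw [hp, Nat.cast_pow, ← Real.rpow_natCast]
    push_cast
    rfl
  have e2 : (p : ℝ) ^ (i + 1 + 2) * ρ ^ (2 * (i + 1 + 1)) =
      (r : ℝ) ^ (((i : ℝ) + 2) * ((i + 3) - 2 * (i + 2) * s.re)) := by
    rw [hρ, hP, ← Real.rpow_natCast, ← Real.rpow_natCast, ← Real.rpow_mul hr0.le,
      ← Real.rpow_mul hr0.le, ← Real.rpow_mul hr0.le, ← Real.rpow_add hr0]
    push_cast
    ring_nf
  rw [e2, one_div, ← Real.rpow_neg_one, ← Real.rpow_natCast (_ ^ (-1 : ℝ)),
    ← Real.rpow_mul hr0.le]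
  refine Real.rpow_le_rpow_of_exponent_le (by exact_mod_cast hr1) ?_
  push_cast
  have h2 := mul_le_mul_of_nonneg_left hs (show (0 : ℝ) ≤ i + 2 by positivity)
  rw [mul_add, mul_one_div_cancel (by positivity)] at h2
  nlinarith

/-- The blocks, with ranges that do not overlap. -/
theorem exists_blocks : ∃ (r : ℕ → ℕ) (S : ℕ → Finset ℕ) (w : ℕ → ℕ → ℂ),
    (∀ k, 2 ^ k ≤ r k) ∧ Pairwise (Disjoint on S) ∧
    (∀ k, ∀ n ∈ S k, r k ^ ((k + 2) ^ 2) < n ∧ n ≤ r k ^ ((k + 2) * (k + 3))) ∧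
    (∀ k, (S k).card = r k ^ ((k + 2) ^ 2)) ∧ (∀ k, ∀ n ∈ S k, ‖w k n‖ = 1) ∧
    ∀ k : ℕ, ∀ s : ℂ, 1 / 2 + 1 / ((k : ℝ) + 2) ≤ s.re →
      ‖∑ n ∈ S k, LSeries.term (w k) s n‖ ≤ 1 / r k := by
  choose f hf S w h1 h2 h3 h4 using exists_block
  obtain ⟨R, hR0, hRs⟩ : ∃ R : ℕ → ℕ, R 0 = 1 ∧
      ∀ k, R (k + 1) = 2 ^ (k + 1) + f k (R k) ^ ((k + 2) * (k + 3)) :=
    ⟨fun k => Nat.rec (motive := fun _ => ℕ) 1
      (fun k R => 2 ^ (k + 1) + f k R ^ ((k + 2) * (k + 3))) k, rfl, fun k => rfl⟩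
  have h2r : ∀ k, 2 ^ k ≤ f k (R k) := fun k => by
    refine le_trans ?_ (hf k (R k))
    rcases k with _ | k
    · simp [hR0]
    · rw [hRs]
      exact Nat.le_add_right _ _
  have hstep : ∀ k j, k < j →
      f k (R k) ^ ((k + 2) * (k + 3)) ≤ f j (R j) ^ ((j + 2) ^ 2) := fun k j hkj => by
    have mono : ∀ l, f l (R l) ^ ((l + 2) * (l + 3)) ≤ R (l + 1) := fun l => by
      rw [hRs]
      exact Nat.le_add_left _ _
    have up : ∀ l, R (l + 1) ≤ f (l + 1) (R (l + 1)) ^ ((l + 1 + 2) ^ 2) := fun l =>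
      (hf _ _).trans (Nat.le_self_pow (by positivity) _)
    induction j with
    | zero => omega
    | succ j ih =>
      rcases Nat.lt_succ_iff_lt_or_eq.1 hkj with h | h
      · refine (ih h).trans (le_trans ?_ ((mono j).trans (up j)))
        exact Nat.pow_le_pow_right ((Nat.one_le_two_pow).trans (h2r j)) (by nlinarith)
      · exact h ▸ (mono k).trans (up k)
  refine ⟨fun k => f k (R k), fun k => S k (R k), fun k => w k (R k), h2r, fun k j hkj => ?_,
    fun k => h1 k (R k), fun k => h2 k (R k), fun k => h3 k (R k), fun k => h4 k (R k)⟩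
  refine Finset.disjoint_left.2 fun n hk hj => ?_
  rcases lt_or_gt_of_ne hkj with h | h
  · exact absurd ((h1 j (R j) n hj).1) (((h1 k (R k) n hk).2.trans (hstep k j h)).not_gt)
  · exact absurd ((h1 k (R k) n hk).1) (((h1 j (R j) n hj).2.trans (hstep j k h)).not_gt)

end FA.BohrStrip

end
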